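import Mathlib
import Fermat.Prelude.Def_GaloisRep_Flat
import Fermat.Prelude.Def_FLTPrelim_Ramification

/-!
# S19 : shared definitions (no sorry)

`HasFFModel ℓ Γ act` : the conclusion of S19 / of `IsFlatAt` for an abstract finite Galois module.
`HasRep A Γ act`     : a faithful, `A`-integral, Galois equivariant matrix representation of `Γ`.
`SG A Ω act`         : the `A`-span of the `A`-valued Galois equivariant functions on a `G`-set `Ω`.
-/

set_option autoImplicit false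

namespace Fermat.Agent.S19

/-- `ℚ̄`. -/
abbrev Qb : Type := AlgebraicClosure ℚ

/-- `G_ℚ`. -/
abbrev GQ : Type := Qb ≃ₐ[ℚ] Qb

/-- the conclusion of S19 (and of `GaloisRepAdic.IsFlatAt`) for an abstract group `Γ` with an "action"
`act` of `G_ℚ`. -/
def HasFFModel (ℓ : ℕ) (Γ : Type) [AddCommGroup Γ] (act : GQ → Γ → Γ) : Prop :=
  ∃ (H : Type) (_ : CommRing H) (_ : HopfAlgebra (GaloisRep.ratLocalizedAt ℓ) H),
    Module.Finite (GaloisRep.ratLocalizedAt ℓ) H ∧ Module.Flat (GaloisRep.ratLocalizedAt ℓ) H ∧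
    Coalgebra.IsCocomm (GaloisRep.ratLocalizedAt ℓ) H ∧
    ∃ e : WithConv (H →ₐ[GaloisRep.ratLocalizedAt ℓ] AlgebraicClosure ℚ) ≃ Γ,
      (∀ f g, e (f * g) = e f + e g) ∧
      ∀ (σ : AlgebraicClosure ℚ ≃ₐ[ℚ] AlgebraicClosure ℚ)
        (f g : WithConv (H →ₐ[GaloisRep.ratLocalizedAt ℓ] AlgebraicClosure ℚ)),
        (∀ h : H, g h = σ (f h)) → e g = act σ (e f)

/-- (REP): a faithful matrix representation of `Γ` with entries in `A`, Galois equivariant. -/
def HasRep (A : ValuationSubring Qb) (Γ : Type) [AddCommGroup Γ] (act : GQ → Γ → Γ) : Prop :=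
  ∃ (m : ℕ) (ρ : Γ → Matrix (Fin m) (Fin m) Qb), ρ 0 = 1 ∧ (∀ P Q, ρ (P + Q) = ρ P * ρ Q) ∧
    Function.Injective ρ ∧ (∀ P i j, ρ P i j ∈ A) ∧ ∀ (σ : GQ) P i j, ρ (act σ P) i j = σ (ρ P i j)

/-- `h : Ω → ℚ̄` is `A`-valued and Galois equivariant. -/
def IsEqFun (A : ValuationSubring Qb) {Ω : Type} (act : GQ → Ω → Ω) (h : Ω → Qb) : Prop :=
  (∀ ω, h ω ∈ A) ∧ ∀ (σ : GQ) ω, h (act σ ω) = σ (h ω)

/-- `𝒮_G(Ω)` : the `A`-span of the `A`-valued Galois equivariant functions. -/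
noncomputable def SG (A : ValuationSubring Qb) {Ω : Type} (act : GQ → Ω → Ω) : Submodule A (Ω → Qb) :=
  Submodule.span A {h | IsEqFun A act h}

end Fermat.Agent.S19
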