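import Fermat.Agent.S19.H.OfRep
import Fermat.Agent.S19.L.Level
import Fermat.Agent.Lib.FrobeniusExists
import Fermat.Agent.GAL.Defs

/-!
# S19 : the top of the chain (no sorry)

`frozen S19  ⇐  AdmRepContract` := (REP) for `J₀(M)[ℓ^k]` for the admissible levels `M` (`4 ∣ M` or `9 ∣ M`),
`ℓ ∤ M`, through (H1) `H.hasFFModel_of_hasRep` and the level change `L.repContract_of_mul`.
The same contract gives `S32.RepContract N ℓ` for ALL levels `N` prime to `ℓ` (input of S32).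
-/

set_option autoImplicit false

open ModularCurve

namespace Fermat.Agent.S19

open Fermat.Agent.S32 (torAct RepContract)

/-- **the remaining contract of S19**: (REP) at admissible levels. -/
def AdmRepContract : Prop :=
  ∀ (M ℓ : ℕ) [NeZero M], GAL.AdmLevel M → ℓ.Prime → ¬ ℓ ∣ M → RepContract M ℓ

/-- (REP) at all levels prime to `ℓ`. -/
theorem repContract_of_adm (h : AdmRepContract) (N ℓ : ℕ) [NeZero N] (hℓ : ℓ.Prime)
    (hN : ¬ ℓ ∣ N) : RepContract N ℓ := by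
  by_cases h2 : ℓ = 2
  · haveI : NeZero (N * 9) := ⟨Nat.mul_ne_zero (NeZero.ne N) (by norm_num)⟩
    refine L.repContract_of_mul N 9 hℓ (h (N * 9) ℓ (Or.inr (Dvd.intro_left N rfl)) hℓ ?_)
    intro hd
    rcases (Nat.Prime.dvd_mul hℓ).1 hd with hd | hd
    · exact hN hd
    · subst h2
      omega
  · haveI : NeZero (N * 4) := ⟨Nat.mul_ne_zero (NeZero.ne N) (by norm_num)⟩
    refine L.repContract_of_mul N 4 hℓ (h (N * 4) ℓ (Or.inl (Dvd.intro_left N rfl)) hℓ ?_)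
    intro hd
    rcases (Nat.Prime.dvd_mul hℓ).1 hd with hd | hd
    · exact hN hd
    · have h4 : ℓ ∣ 2 ^ 2 := by simpa using hd
      exact h2 ((Nat.prime_dvd_prime_iff_eq hℓ Nat.prime_two).1 (hℓ.dvd_of_dvd_pow h4))

/-- finite flat models of `J₀(N)[ℓ^k]`. -/
theorem hasFFModel_of_adm (h : AdmRepContract) (N ℓ : ℕ) [NeZero N] [Fact ℓ.Prime]
    (hN : ¬ ℓ ∣ N) (k : ℕ) :
    HasFFModel ℓ (Submodule.torsionBy ℤ (JZero N) ((ℓ : ℤ) ^ k)) (torAct N ((ℓ : ℤ) ^ k)) := by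
  have hℓ : ℓ.Prime := Fact.out
  obtain ⟨A, hA⟩ := Fermat.Agent.Lib.FrobeniusExists.exists_liesOverPrime (L := Qb) hℓ
  haveI : Finite (Submodule.torsionBy ℤ (JZero N) ((ℓ : ℤ) ^ k)) :=
    L.finite_torsionBy N (ℓ ^ k) (pow_pos hℓ.pos _) _ (by push_cast; rfl)
  exact H.hasFFModel_of_hasRep A hA _ (repContract_of_adm h N ℓ hℓ hN A hA k)

/-- **the frozen statement S19** from the contract. -/
theorem S19_of_adm (hadm : AdmRepContract)
    (p : ℕ) [NeZero p] (ℓ : ℕ) [Fact ℓ.Prime] (hℓp : ¬ ℓ ∣ p) (k : ℕ) :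
    ∃ (H : Type) (_ : CommRing H) (_ : HopfAlgebra (GaloisRep.ratLocalizedAt ℓ) H),
      Module.Finite (GaloisRep.ratLocalizedAt ℓ) H ∧ Module.Flat (GaloisRep.ratLocalizedAt ℓ) H ∧
      Coalgebra.IsCocomm (GaloisRep.ratLocalizedAt ℓ) H ∧
      ∃ e : WithConv (H →ₐ[GaloisRep.ratLocalizedAt ℓ] AlgebraicClosure ℚ) ≃
          ↥(Submodule.torsionBy ℤ (JZero p) ((ℓ : ℤ) ^ k)),
        (∀ f g, e (f * g) = e f + e g) ∧
        ∀ (σ : AlgebraicClosure ℚ ≃ₐ[ℚ] AlgebraicClosure ℚ)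
          (f g : WithConv (H →ₐ[GaloisRep.ratLocalizedAt ℓ] AlgebraicClosure ℚ)),
          (∀ h : H, g h = σ (f h)) → ((e g : JZero p)) = σ • (e f : JZero p) := by
  obtain ⟨H, i1, i2, h1, h2, h3, e, he1, he2⟩ := hasFFModel_of_adm hadm p ℓ hℓp k
  exact ⟨H, i1, i2, h1, h2, h3, e, he1, fun σ f g hfg => congrArg Subtype.val (he2 σ f g hfg)⟩

end Fermat.Agent.S19
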